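import Mathlib
set_option autoImplicit false
namespace Fermat.Agent.S14

theorem gl_exists_max_pow {A : Type*} [CommGroup A] [Finite A] (p : ℕ) [Fact p.Prime]
    (c : A) (hc1 : c ≠ 1) (hcp : c ^ p = 1) :
    ∃ (k : ℕ) (d : A), d ^ p ^ k = c ∧ ∀ e : A, e ^ p ^ (k + 1) ≠ c := by
  classical
  have hex : ∃ N : ℕ, ∀ e : A, e ^ p ^ N ≠ c := by
    refine ⟨Nat.card A, fun e he => ?_⟩
    have h1 : ¬ e ^ p ^ (Nat.card A) = 1 := by rw [he]; exact hc1
    have h2 : e ^ p ^ (Nat.card A + 1) = 1 := by rw [pow_succ, pow_mul, he, hcp]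
    have h3 := orderOf_eq_prime_pow h1 h2
    have h4 : orderOf e ≤ Nat.card A := orderOf_le_card
    have h5 : Nat.card A + 1 < p ^ (Nat.card A + 1) :=
      Nat.lt_pow_self (Fact.out : p.Prime).one_lt
    omega
  have hN := Nat.find_spec hex
  have hmin := fun m => Nat.find_min hex (m := m)
  obtain ⟨k, hk⟩ : ∃ k, Nat.find hex = k + 1 := by
    refine Nat.exists_eq_succ_of_ne_zero ?_
    intro h0
    rw [h0] at hN
    exact hN c (by simp)
  have := hmin k (by omega)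
  push Not at this
  obtain ⟨d, hd⟩ := this
  exact ⟨k, d, hd, by rw [← hk]; exact hN⟩

theorem gl_exists_addHom' {Q : Type*} [AddCommGroup Q] (p : ℕ) [Fact p.Prime]
    [Module (ZMod p) Q] (x : Q) (hx : x ≠ 0) : ∃ φ : Q →+ ZMod p, φ x ≠ 0 := by
  classical
  by_contra hcon
  push Not at hcon
  have h := (Module.forall_dual_apply_eq_zero_iff (ZMod p) x).mp
  refine hx (h fun φ => ?_)
  exact hcon φ.toAddMonoidHom

theorem gl_exists_addHom {Q : Type*} [AddCommGroup Q] (p : ℕ) [Fact p.Prime]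
    (hQ : ∀ x : Q, p • x = 0) (x : Q) (hx : x ≠ 0) : ∃ φ : Q →+ ZMod p, φ x ≠ 0 :=
  @gl_exists_addHom' Q _ p _ (AddCommGroup.zmodModule hQ) x hx

theorem gl_exists_functional {A : Type*} [CommGroup A] (p : ℕ) [Fact p.Prime] (k : ℕ) (d : A)
    (hd : ∀ e : A, e ^ p ^ (k + 1) ≠ d ^ p ^ k) :
    ∃ f : A →* Multiplicative (ZMod p), f d ≠ 1 ∧ ∀ t : A, t ^ p ^ k = 1 → f t = 1 := by
  classical
  let H : Subgroup A := (powMonoidHom (p ^ k) : A →* A).ker ⊔ (powMonoidHom p : A →* A).range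
  have hQ : ∀ x : Additive (A ⧸ H), p • x = 0 := by
    intro x
    obtain ⟨a, ha⟩ := QuotientGroup.mk_surjective (Additive.toMul x)
    have h1 : (QuotientGroup.mk (a ^ p) : A ⧸ H) = 1 := by
      rw [QuotientGroup.eq_one_iff]
      exact Subgroup.mem_sup_right ⟨a, rfl⟩
    have h2 : (Additive.toMul x) ^ p = 1 := by
      rw [← ha, ← QuotientGroup.mk_pow, h1]
    exact h2
  have hdQ : (Additive.ofMul (QuotientGroup.mk d : A ⧸ H)) ≠ 0 := by
    intro h
    have h1 : (QuotientGroup.mk d : A ⧸ H) = 1 := h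
    rw [QuotientGroup.eq_one_iff] at h1
    obtain ⟨t, ht, s, hs, hts⟩ := Subgroup.mem_sup.mp h1
    obtain ⟨e, rfl⟩ := hs
    have ht' : t ^ p ^ k = 1 := ht
    refine hd e ?_
    rw [← hts, mul_pow, ht', one_mul]
    simp only [powMonoidHom_apply]
    rw [← pow_mul, pow_succ, mul_comm]
  obtain ⟨φ, hφ⟩ := gl_exists_addHom p hQ _ hdQ
  refine ⟨MonoidHom.mk' (fun a => Multiplicative.ofAdd
      (φ (Additive.ofMul (QuotientGroup.mk a : A ⧸ H)))) ?_, ?_, ?_⟩
  · intro a b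
    rw [QuotientGroup.mk_mul, ofMul_mul, map_add, ofAdd_add]
  · intro h
    exact hφ h
  · intro t ht
    have h1 : (QuotientGroup.mk t : A ⧸ H) = 1 := by
      rw [QuotientGroup.eq_one_iff]
      exact Subgroup.mem_sup_left ht
    simp only [MonoidHom.mk'_apply, h1]
    simp

theorem exists_equivariant_functional {A : Type*} [CommGroup A] [Finite A] {Δ : Type*} [Group Δ]
    [Finite Δ] (p : ℕ) [Fact p.Prime] (hΔ : ¬ p ∣ Nat.card Δ)
    (act : Δ →* MulAut A) (θ : Δ →* (ZMod p)ˣ) (c : A) (hc1 : c ≠ 1) (hcp : c ^ p = 1)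
    (hc : ∀ δ, act δ c = c ^ ((θ δ : (ZMod p)ˣ) : ZMod p).val) :
    ∃ lam : A →* Multiplicative (ZMod p), lam ≠ 1 ∧
      ∀ δ a, lam (act δ a) = lam a ^ ((θ δ : (ZMod p)ˣ) : ZMod p).val := by
  classical
  have : Fintype Δ := Fintype.ofFinite Δ
  obtain ⟨k, d, hdc, hmax⟩ := gl_exists_max_pow p c hc1 hcp
  obtain ⟨f, hfd, hfk⟩ := gl_exists_functional p k d (by rw [hdc]; exact hmax)
  -- additive version of `f`
  let g : A → ZMod p := fun a => Multiplicative.toAdd (f a)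
  have hg_mul : ∀ a b, g (a * b) = g a + g b := fun a b => by
    simp only [g, map_mul, toAdd_mul]
  have hg_pow : ∀ (a : A) (n : ℕ), g (a ^ n) = (n : ZMod p) * g a := fun a n => by
    simp only [g, map_pow, toAdd_pow, nsmul_eq_mul]
  have hg_d : g d ≠ 0 := fun h => hfd h
  have hg_act : ∀ δ, g (act δ d) = ((θ δ : (ZMod p)ˣ) : ZMod p) * g d := by
    intro δ
    set v := ((θ δ : (ZMod p)ˣ) : ZMod p).val with hv
    have h1 : (act δ d * (d ^ v)⁻¹) ^ p ^ k = 1 := by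
      rw [mul_pow, inv_pow, ← map_pow, hdc, hc δ, ← pow_mul, mul_comm v, pow_mul, hdc,
        mul_inv_cancel]
    have h2 : g (act δ d * (d ^ v)⁻¹) = 0 := by
      have := hfk _ h1
      simp only [g, this, toAdd_one]
    have h3 : g (act δ d) = g (act δ d * (d ^ v)⁻¹) + g (d ^ v) := by
      rw [← hg_mul, inv_mul_cancel_right]
    rw [h3, h2, zero_add, hg_pow, hv, ZMod.natCast_zmod_val]
  let F : A → ZMod p := fun a => ∑ δ : Δ, (((θ δ)⁻¹ : (ZMod p)ˣ) : ZMod p) * g (act δ a)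
  have hF_mul : ∀ a b, F (a * b) = F a + F b := fun a b => by
    simp only [F, map_mul, hg_mul, mul_add, Finset.sum_add_distrib]
  have hF_act : ∀ δ' a, F (act δ' a) = ((θ δ' : (ZMod p)ˣ) : ZMod p) * F a := by
    intro δ' a
    simp only [F, Finset.mul_sum]
    refine Fintype.sum_equiv (Equiv.mulRight δ') _ _ ?_
    intro δ
    simp only [Equiv.coe_mulRight, map_mul, MulAut.mul_apply, mul_inv_rev, Units.val_mul]
    rw [← mul_assoc, ← mul_assoc, ← Units.val_mul, mul_inv_cancel, Units.val_one, one_mul]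
  have hF_d : F d ≠ 0 := by
    have h1 : F d = (Nat.card Δ : ZMod p) * g d := by
      simp only [F, hg_act]
      have : ∀ δ : Δ, (((θ δ)⁻¹ : (ZMod p)ˣ) : ZMod p) * (((θ δ : (ZMod p)ˣ) : ZMod p) * g d)
          = g d := fun δ => by
        rw [← mul_assoc, ← Units.val_mul, inv_mul_cancel, Units.val_one, one_mul]
      simp only [this, Finset.sum_const, Finset.card_univ, nsmul_eq_mul, Nat.card_eq_fintype_card]
    rw [h1]
    refine mul_ne_zero ?_ hg_d
    rwa [Ne, ZMod.natCast_eq_zero_iff]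
  refine ⟨MonoidHom.mk' (fun a => Multiplicative.ofAdd (F a)) ?_, ?_, ?_⟩
  · intro a b
    rw [hF_mul, ofAdd_add]
  · intro h
    have := DFunLike.congr_fun h d
    exact hF_d this
  · intro δ a
    simp only [MonoidHom.mk'_apply]
    rw [hF_act, ← ofAdd_nsmul, nsmul_eq_mul, ZMod.natCast_zmod_val]

end Fermat.Agent.S14
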