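import Mathlib
import Fermat.Prelude.Def_ExtCitation_AdmissibleExtension_v2
import Fermat.Prelude.Def_ExtCitation_KummerBridge
import Fermat.Prelude.Def_ClassGroup_GaloisAction

/-!
# S14 : common definitions for the whole project
-/

set_option autoImplicit false

namespace Fermat.Agent.S14

open NumberField

/-- `Gal(ℚ̄/ℚ)`. -/
abbrev GQ : Type := AlgebraicClosure ℚ ≃ₐ[ℚ] AlgebraicClosure ℚ

/-- Thaine's cyclotomic number `η = ∏_{b=1}^{p-1} (1 - ζ^b)^(b^(p-3))`
(the `ω²`-projection of `1 - ζ`, since `b^(p-3) ≡ b⁻² mod p`). -/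
def eta (p : ℕ) {R : Type*} [CommRing R] (ζ : R) : R :=
  ∏ b ∈ Finset.Ico 1 p, (1 - ζ ^ b) ^ (b ^ (p - 3))

/-- The ring automorphism of `𝓞 K` induced by a field automorphism. -/
noncomputable abbrev sigO {K : Type*} [Field K] [NumberField K] (σ : K ≃ₐ[ℚ] K) : 𝓞 K ≃+* 𝓞 K :=
  RingOfIntegers.mapRingEquiv (σ : K ≃+* K)

end Fermat.Agent.S14
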